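import Fermat.Agent.A2.Mod.Spec
import Fermat.Agent.S18.H208.M1
import Fermat.Agent.S18.H602.BaseChange

/-!
# A2 / MOD leaf L7 `FrickeStable` (helper454)

At level `M` prime to the residue characteristic the Fricke involution `W` of
`F_{M,E} = E(j_d : d ∣ M)` preserves the Gauss valuation ring `V∞`.

Proof.  `F_M` has the uniform integral basis `y_i` over `E(j)` (S18 H208 `M1.exists_basis`), whose
reductions are independent over `κ(j)`; hence every `f ∈ V∞` satisfies
`g(j) f = Σ f_i(j) y_i` with `g, f_i ∈ R[X]`, `g ≢ 0 mod w` (`exists_denominator`).  Apply `W`: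
`g(j_M) W f = Σ f_i(j_M) W y_i`; `W y_i` has an integral `t`-expansion (polynomial in the `j_d`
with integer coefficients) and `g(j_M)` is a primitive integral series, because `j_M` mod `w` is
transcendental over `κ`.

* `frickeStable : FrickeStableStatement P E M q w`.
-/

set_option autoImplicit false
set_option synthInstance.maxHeartbeats 400000
set_option maxHeartbeats 1600000
set_option linter.unusedSectionVars false
set_option linter.style.haveILetI false

noncomputable section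

namespace Fermat.Agent.A2.Mod.H454

open ModularCurve HahnSeries Polynomial
open Fermat.Agent.A2 Fermat.Agent.A2.Mod
open Fermat.Agent.S28 Fermat.Agent.S28.H86 Fermat.Agent.S18.H208

variable (P : ValuationSubring Qb) (E : IntermediateField ℚ Qb)

/-- the integer series `j(t^d)` in `E((t))` -/
theorem coe_jE_eq (N d : ℕ) [NeZero d] (hd : d ∣ N) :
    ((jE E N d hd : ↥(FE E N)) : LaurentSeries ↥E) =
      coeffMap (Int.castRingHom ↥E) (qExpand ℤ d (jqModC ℤ)) := by
  rw [← jd_eq_intCast]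
  exact Fermat.Agent.S18.H602.coeffEmb_qExpand_jq (↥E) d

theorem castE_mem_FE (N : ℕ) {y : LaurentSeries ℤ}
    (hy : y ∈ Subring.closure (intDivisorExpansions N)) :
    coeffMap (Int.castRingHom ↥E) y ∈ FE E N := by
  show _ ∈ laurentBaseChange (↥E) (modularFunctionFieldFull N)
  rw [Fermat.Agent.S18.H602.laurentBaseChange_full_eq]
  exact coeffMap_intCast_mem_full (↥E) N hy

variable {E}

/-- `W` maps functions with integral expansion (in `ℤ[j_d : d ∣ M]`) to such functions. -/
theorem exists_int_image {M : ℕ} [NeZero M] {W : FE E M ≃ₐ[↥E] FE E M} (hW : IsFricke E M W)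
    {y : LaurentSeries ℤ} (hy : y ∈ Subring.closure (intDivisorExpansions M)) :
    ∃ y' : LaurentSeries ℤ, ∀ Y : ↥(FE E M),
      (Y : LaurentSeries ↥E) = coeffMap (Int.castRingHom ↥E) y →
      ((W Y : ↥(FE E M)) : LaurentSeries ↥E) = coeffMap (Int.castRingHom ↥E) y' := by
  induction hy using Subring.closure_induction with
  | mem x hx =>
    obtain ⟨d, hd, hdM, rfl⟩ := hx
    haveI := hd
    obtain ⟨d', hd'⟩ := hdM
    have hd'0 : d' ≠ 0 := by
      rintro rfl
      exact NeZero.ne M (by rw [hd', mul_zero])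
    haveI : NeZero d' := ⟨hd'0⟩
    refine ⟨qExpand ℤ d' (jqModC ℤ), fun Y hY => ?_⟩
    have hY' : Y = jE E M d ⟨d', hd'⟩ := Subtype.ext (by rw [hY, coe_jE_eq])
    rw [hY', hW.1 d d' ⟨d', hd'⟩ ⟨d, by rw [hd', mul_comm]⟩ hd'.symm, coe_jE_eq]
  | zero =>
    refine ⟨0, fun Y hY => ?_⟩
    have hY' : Y = 0 := Subtype.ext (by rw [hY, map_zero]; rfl)
    rw [hY', map_zero, map_zero]
    rfl
  | one =>
    refine ⟨1, fun Y hY => ?_⟩
    have hY' : Y = 1 := Subtype.ext (by rw [hY, map_one]; rfl)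
    rw [hY', map_one, map_one]
    rfl
  | add a b ha hb iha ihb =>
    obtain ⟨a', ha'⟩ := iha
    obtain ⟨b', hb'⟩ := ihb
    refine ⟨a' + b', fun Y hY => ?_⟩
    have hY' : Y = (⟨_, castE_mem_FE E M ha⟩ : ↥(FE E M)) + ⟨_, castE_mem_FE E M hb⟩ :=
      Subtype.ext (by rw [hY, map_add]; rfl)
    have hA := ha' ⟨_, castE_mem_FE E M ha⟩ rfl
    have hB := hb' ⟨_, castE_mem_FE E M hb⟩ rfl
    rw [hY', map_add, map_add, ← hA, ← hB]
    rfl
  | neg a ha iha =>
    obtain ⟨a', ha'⟩ := iha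
    refine ⟨-a', fun Y hY => ?_⟩
    have hY' : Y = -(⟨_, castE_mem_FE E M ha⟩ : ↥(FE E M)) :=
      Subtype.ext (by rw [hY, map_neg]; rfl)
    have hA := ha' ⟨_, castE_mem_FE E M ha⟩ rfl
    rw [hY', map_neg, map_neg, ← hA]
    rfl
  | mul a b ha hb iha ihb =>
    obtain ⟨a', ha'⟩ := iha
    obtain ⟨b', hb'⟩ := ihb
    refine ⟨a' * b', fun Y hY => ?_⟩
    have hY' : Y = (⟨_, castE_mem_FE E M ha⟩ : ↥(FE E M)) * ⟨_, castE_mem_FE E M hb⟩ :=
      Subtype.ext (by rw [hY, map_mul]; rfl)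
    have hA := ha' ⟨_, castE_mem_FE E M ha⟩ rfl
    have hB := hb' ⟨_, castE_mem_FE E M hb⟩ rfl
    rw [hY', map_mul, map_mul, ← hA, ← hB]
    rfl


/-! ### evaluation of polynomials with `R`-coefficients -/

section Eval

variable (O : Subring ↥E)

/-- `inclL` commutes with evaluation of polynomials. -/
theorem inclL_evO_eq (J : LaurentSeries ↥O) (p : Polynomial ↥O) :
    inclL O (evO J p) = evE O (inclL O J) p := by
  rw [evO_apply, Polynomial.hom_eval₂]
  show _ = Polynomial.eval₂ _ _ p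
  congr 1
  ext c : 1
  rw [RingHom.comp_apply, RingHom.comp_apply, inclL_C]
  rfl

/-- coercion `F → E((t))` commutes with evaluation of polynomials. -/
theorem coe_eval₂_FE (N : ℕ) (t : ↥(FE E N)) (p : Polynomial ↥O) :
    ((p.eval₂ ((algebraMap ↥E ↥(FE E N)).comp O.subtype) t : ↥(FE E N)) : LaurentSeries ↥E) =
      evE O (t : LaurentSeries ↥E) p := by
  show (FE E N).val.toRingHom (p.eval₂ ((algebraMap ↥E ↥(FE E N)).comp O.subtype) t) = _
  rw [Polynomial.hom_eval₂]
  show _ = Polynomial.eval₂ _ _ p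
  congr 1
  ext c : 1
  rw [RingHom.comp_apply, RingHom.comp_apply, RingHom.comp_apply]
  show algebraMap ↥E (LaurentSeries ↥E) (c : ↥E) = _
  rw [algebraMap_laurentSeries_eq_single]
  rfl

/-- an `E`-algebra automorphism commutes with evaluation of polynomials. -/
theorem map_eval₂_FE (N : ℕ) (W : FE E N ≃ₐ[↥E] FE E N) (t : ↥(FE E N)) (p : Polynomial ↥O) :
    W (p.eval₂ ((algebraMap ↥E ↥(FE E N)).comp O.subtype) t) =
      p.eval₂ ((algebraMap ↥E ↥(FE E N)).comp O.subtype) (W t) := by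
  show (W : ↥(FE E N) →+* ↥(FE E N)) _ = _
  rw [Polynomial.hom_eval₂]
  congr 1
  ext c : 1
  rw [RingHom.comp_apply, RingHom.comp_apply]
  show W (algebraMap ↥E ↥(FE E N) (c : ↥E)) = _
  rw [AlgEquiv.commutes]
  rfl

end Eval

/-! ### the residue characteristic -/

section Char

variable {P}

theorem natCast_mem_maximalIdeal {q : ℕ} (hq : q.Prime) (hP : P.LiesOverPrime q) :
    ((q : ℕ) : ↥(RE P E)) ∈ IsLocalRing.maximalIdeal ↥(RE P E) := by
  rw [← ValuationSubring.coe_mem_nonunits_iff, ValuationSubring.mem_nonunits_iff_or]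
  right
  intro hmem
  have h1 : (((((q : ℕ) : ↥(RE P E)) : ↥E))⁻¹ : ↥E) = ((q : ℕ) : ↥E)⁻¹ := by
    congr 1
  rw [h1] at hmem
  have h2 : algebraMap ↥E Qb (((q : ℕ) : ↥E)⁻¹) ∈ P := hmem
  rw [map_inv₀, map_natCast] at h2
  rcases (ValuationSubring.mem_nonunits_iff_or (A := P)).mp hP with h0 | h0
  · exact hq.ne_zero (Nat.cast_eq_zero.mp h0)
  · exact h0 h2

theorem natCast_residue_ne_zero {M q : ℕ} (hq : q.Prime) (hqM : ¬ q ∣ M)
    (hP : P.LiesOverPrime q) : ((M : ℕ) : IsLocalRing.ResidueField ↥(RE P E)) ≠ 0 := by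
  have hq0 : ((q : ℕ) : IsLocalRing.ResidueField ↥(RE P E)) = 0 := by
    have := (IsLocalRing.residue_eq_zero_iff ((q : ℕ) : ↥(RE P E))).mpr
      (natCast_mem_maximalIdeal hq hP)
    simpa using this
  haveI : CharP (IsLocalRing.ResidueField ↥(RE P E)) q :=
    (CharP.charP_iff_prime_eq_zero hq).mpr hq0
  exact fun h0 => hqM ((CharP.cast_eq_zero_iff _ q M).mp h0)

end Char

/-! ### transcendence of `j(t^M)` -/

theorem aeval_jd_ne_zero (k : Type) [Field k] (d : ℕ) [NeZero d] {Q : Polynomial k}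
    (hQ : Q ≠ 0) : Polynomial.aeval (qExpand k d (jqModC k)) Q ≠ 0 := by
  have h1 : Polynomial.aeval (qExpand k d (jqModC k)) Q =
      qExpandAlgHomC k d (Polynomial.aeval (jqModC k) Q) := by
    rw [← Polynomial.aeval_algHom_apply]
    rfl
  rw [h1]
  intro h0
  apply aeval_j_ne_zero hQ
  apply qExpand_injective (R := k) (N := d)
  rw [map_zero]
  exact h0


/-! ### L7 -/

section Main

variable (E)
variable (M q : ℕ) [NeZero M] [NeZero q] (w : RE P E)

/-- **L7.** At level `M` prime to the residue characteristic the Fricke involution preserves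
the Gauss valuation ring `V∞`. -/
theorem frickeStable : FrickeStableStatement P E M q w := by
  intro hS V W hV hW f hf
  rw [hV (W f)]
  -- the discrete valuation ring `O = R_E`, as a subring
  obtain ⟨O, hO⟩ : ∃ O : Subring ↥E, O = (RE P E).toSubring := ⟨_, rfl⟩
  subst hO
  haveI hdvr : IsDiscreteValuationRing ↥(RE P E).toSubring := hS.dvr
  have hwirr : Irreducible (w : ↥(RE P E).toSubring) := hS.unif
  have hu : UnifData (RE P E).toSubring (IsLocalRing.residue ↥(RE P E).toSubring) w :=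
    unifData_residue (RE P E).toSubring hwirr
  have hfrac : IsFrac (RE P E).toSubring := isFrac_valuationSubring (RE P E)
  have hMκ : ((M : ℕ) : IsLocalRing.ResidueField ↥(RE P E).toSubring) ≠ 0 :=
    natCast_residue_ne_zero (E := E) hS.q_prime hS.q_not_dvd hS.lies_over
  have hME : ((M : ℕ) : ↥E) ≠ 0 := Nat.cast_ne_zero.mpr (NeZero.ne M)
  obtain ⟨y, hy, hbasis⟩ := M1.exists_basis M
  obtain ⟨hspanE, -⟩ := hbasis ↥E hME
  obtain ⟨-, hliκ⟩ := hbasis (IsLocalRing.ResidueField ↥(RE P E).toSubring) hMκ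
  have hfF : (f : LaurentSeries ↥E) ∈ modularFunctionFieldFullC ↥E M := by
    rw [← Fermat.Agent.S18.H602.laurentBaseChange_full_eq]
    exact f.2
  have hfG : (f : LaurentSeries ↥E) ∈
      gaussRing (RE P E).toSubring (IsLocalRing.residue ↥(RE P E).toSubring) := by
    obtain ⟨U₁, U₂, h0, -, he⟩ := (hV f).mp hf
    exact ⟨U₁, U₂, h0, he⟩
  obtain ⟨g, fi, hg, hrel⟩ := exists_denominator hu hfrac y hliκ (hspanE _ hfF) hfG
  -- the relation in `F`
  have hJ1 : ((jE E M 1 (one_dvd M) : ↥(FE E M)) : LaurentSeries ↥E) = jqModC ↥E := by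
    rw [coe_jE_eq, qExpand_one_apply, coeffMap_jqModC]
  have hrelF : g.eval₂ ((algebraMap ↥E ↥(FE E M)).comp (RE P E).toSubring.subtype)
        (jE E M 1 (one_dvd M)) * f =
      ∑ i, (fi i).eval₂ ((algebraMap ↥E ↥(FE E M)).comp (RE P E).toSubring.subtype)
        (jE E M 1 (one_dvd M)) * ⟨_, castE_mem_FE E M (hy i)⟩ := by
    apply Subtype.ext
    have h1 : (((∑ i, (fi i).eval₂ ((algebraMap ↥E ↥(FE E M)).comp (RE P E).toSubring.subtype)
        (jE E M 1 (one_dvd M)) * ⟨_, castE_mem_FE E M (hy i)⟩ : ↥(FE E M))) : LaurentSeries ↥E) =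
        ∑ i, evE (RE P E).toSubring (jqModC ↥E) (fi i) *
          coeffMap (Int.castRingHom ↥E) (y i) := by
      show (FE E M).val _ = _
      rw [map_sum]
      refine Finset.sum_congr rfl fun i _ => ?_
      rw [map_mul]
      show ((_ : ↥(FE E M)) : LaurentSeries ↥E) * _ = _
      rw [coe_eval₂_FE, hJ1]
      rfl
    rw [h1, ← hrel]
    show ((_ : ↥(FE E M)) : LaurentSeries ↥E) * _ = _
    rw [coe_eval₂_FE, hJ1]
  -- apply `W`
  choose y' hy' using fun i => exists_int_image hW (hy i)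
  have hWJ : W (jE E M 1 (one_dvd M)) = jE E M M dvd_rfl :=
    hW.1 1 M (one_dvd M) dvd_rfl (one_mul M)
  have hrelW := congrArg W hrelF
  rw [map_mul, map_sum, map_eval₂_FE, hWJ] at hrelW
  have hrelW' : evE (RE P E).toSubring
        (coeffMap (Int.castRingHom ↥E) (qExpand ℤ M (jqModC ℤ))) g * (W f : LaurentSeries ↥E) =
      ∑ i, evE (RE P E).toSubring
        (coeffMap (Int.castRingHom ↥E) (qExpand ℤ M (jqModC ℤ))) (fi i) *
          coeffMap (Int.castRingHom ↥E) (y' i) := by
    have h2 := congrArg Subtype.val hrelW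
    have h3 : (((∑ i, W ((fi i).eval₂
        ((algebraMap ↥E ↥(FE E M)).comp (RE P E).toSubring.subtype)
        (jE E M 1 (one_dvd M)) * ⟨_, castE_mem_FE E M (hy i)⟩) : ↥(FE E M))) :
          LaurentSeries ↥E) =
        ∑ i, evE (RE P E).toSubring
          (coeffMap (Int.castRingHom ↥E) (qExpand ℤ M (jqModC ℤ))) (fi i) *
            coeffMap (Int.castRingHom ↥E) (y' i) := by
      show (FE E M).val _ = _
      rw [map_sum]
      refine Finset.sum_congr rfl fun i _ => ?_
      rw [map_mul W, map_eval₂_FE, hWJ, map_mul]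
      show ((_ : ↥(FE E M)) : LaurentSeries ↥E) * ((_ : ↥(FE E M)) : LaurentSeries ↥E) = _
      rw [coe_eval₂_FE, coe_jE_eq, hy' i _ rfl]
    rw [h3] at h2
    rw [← h2]
    show _ = ((_ : ↥(FE E M)) : LaurentSeries ↥E) * _
    rw [coe_eval₂_FE, coe_jE_eq]
  -- the integral series
  set jA : LaurentSeries ↥(RE P E).toSubring :=
    intO (RE P E).toSubring (qExpand ℤ M (jqModC ℤ)) with hjA
  have hjA' : inclL (RE P E).toSubring jA =
      coeffMap (Int.castRingHom ↥E) (qExpand ℤ M (jqModC ℤ)) := inclL_intO _ _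
  have hred : redL (IsLocalRing.residue ↥(RE P E).toSubring) (evO jA g) ≠ 0 := by
    rw [redL_evO, hjA, redL_intO, ← jd_eq_intCast]
    exact aeval_jd_ne_zero _ M hg
  have hmem : inclL (RE P E).toSubring (evO jA g) ∈
      laurentBaseChange (↥E) (modularFunctionFieldFull M) := by
    rw [inclL_evO_eq, hjA', ← coe_jE_eq E M M dvd_rfl, ← coe_eval₂_FE]
    exact Subtype.mem _
  refine ⟨∑ i, evO jA (fi i) * intO (RE P E).toSubring (y' i), evO jA g, hred, hmem, ?_⟩
  show _ * inclL (RE P E).toSubring (evO jA g) = inclL (RE P E).toSubring _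
  rw [map_sum, inclL_evO_eq, hjA', mul_comm, hrelW']
  refine Finset.sum_congr rfl fun i _ => ?_
  rw [map_mul, inclL_evO_eq, hjA', inclL_intO]

end Main

end Fermat.Agent.A2.Mod.H454

end
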